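import Fermat.Agent.GRHProgressions.Psi

/-!
# The second difference of `y ^ (s + 1) / (s (s + 1))`

It is `O (h ² y ^ (σ - 1))` and `O (y ^ (σ + 1) / (1 + |t|) ²)`, so its sum over zeros on the
critical line with `O (N A)` of them below height `N` is `O (A h √y)`.
-/

set_option autoImplicit false

noncomputable section

namespace FA.CramerGaps

open Complex Finset
open FA.Gallagher (zeroPow)

/-- The second difference with step `h`. -/
def secondDiff (x h : ℝ) (s : ℂ) : ℂ :=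
  zeroPow (x + 2 * h) s - 2 * zeroPow (x + h) s + zeroPow x s

theorem norm_secondDiff_le_sq {x h : ℝ} (hx : 0 < x) (hh : 0 ≤ h) {s : ℂ}
    (h0 : 1 / 4 ≤ s.re) (h1 : s.re ≤ 1) : ‖secondDiff x h s‖ ≤ h ^ 2 * x ^ (s.re - 1) := by
  have hs : s ≠ 0 := fun e => by rw [e] at h0; norm_num at h0
  have hs1 : s + 1 ≠ 0 := fun e => by
    have := congrArg Complex.re e
    simp at this
    linarith
  have hzero : ∀ u : ℝ, 0 < u → HasDerivAt (fun v : ℝ => zeroPow v s) ((u : ℂ) ^ s / s) u :=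
    fun u hu => by
    have h := (hasDerivAt_ofReal_cpow_const hu.ne' hs1).div_const (s * (s + 1))
    rw [add_sub_cancel_right, mul_comm s, mul_div_mul_left _ _ hs1] at h
    rw [mul_comm (s + 1)] at h
    exact h
  have hpow : ∀ u ∈ Set.Icc x (x + h), ‖((u + h : ℝ) : ℂ) ^ s / s - (u : ℂ) ^ s / s‖ ≤
      h * x ^ (s.re - 1) := fun u hu => by
    have hu0 : 0 < u := hx.trans_le hu.1
    have h2 := (convex_Icc u (u + h)).norm_image_sub_le_of_norm_hasDerivWithin_le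
      (f := fun v : ℝ => (v : ℂ) ^ s) (f' := fun v : ℝ => s * (v : ℂ) ^ (s - 1))
      (C := ‖s‖ * x ^ (s.re - 1)) (fun v hv => (hasDerivAt_ofReal_cpow_const
        (hu0.trans_le hv.1).ne' hs).hasDerivWithinAt)
      (fun v hv => by
        rw [norm_mul, norm_cpow_eq_rpow_re_of_pos (hu0.trans_le hv.1), sub_re, one_re]
        exact mul_le_mul_of_nonneg_left
          (Real.rpow_le_rpow_of_nonpos hx (hu.1.trans hv.1) (by linarith)) (norm_nonneg _))
      (Set.left_mem_Icc.2 (by linarith)) (Set.right_mem_Icc.2 (by linarith))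
    rw [← sub_div, norm_div, div_le_iff₀ (norm_pos_iff.2 hs)]
    refine h2.trans (le_of_eq ?_)
    rw [Real.norm_eq_abs, add_sub_cancel_left, abs_of_nonneg hh]
    ring
  have h2 := (convex_Icc x (x + h)).norm_image_sub_le_of_norm_hasDerivWithin_le
    (f := fun v : ℝ => zeroPow (v + h) s - zeroPow v s)
    (f' := fun v : ℝ => ((v + h : ℝ) : ℂ) ^ s / s - (v : ℂ) ^ s / s) (C := h * x ^ (s.re - 1))
    (fun v hv => (((hzero (v + h) (by linarith [hv.1])).comp_add_const v h).sub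
      (hzero v (hx.trans_le hv.1))).hasDerivWithinAt) hpow
    (Set.left_mem_Icc.2 (by linarith)) (Set.right_mem_Icc.2 (by linarith))
  rw [Real.norm_eq_abs, add_sub_cancel_left, abs_of_nonneg hh,
    show x + h + h = x + 2 * h by ring] at h2
  refine le_trans (le_of_eq (congrArg norm ?_)) (h2.trans (le_of_eq (by ring)))
  rw [secondDiff]
  ring

theorem norm_secondDiff_le_kernel {x h : ℝ} (hx : 0 < x) (hh : 0 ≤ h) (hhx : h ≤ x) {s : ℂ}
    (h0 : 1 / 4 ≤ s.re) (h1 : s.re ≤ 1) :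
    ‖secondDiff x h s‖ ≤ 900 * x ^ (s.re + 1) / (1 + |s.im|) ^ 2 := by
  have e : ∀ u : ℝ, 0 < u → u ≤ 3 * x →
      ‖zeroPow u s‖ ≤ 225 * x ^ (s.re + 1) / (1 + |s.im|) ^ 2 := fun u hu hu3 => by
    refine (GRHProgressions.norm_zeroPow_le h0 hu).trans (div_le_div_of_nonneg_right ?_
      (by positivity))
    calc 25 * u ^ (s.re + 1) ≤ 25 * ((3 : ℝ) ^ (s.re + 1) * x ^ (s.re + 1)) := by
          rw [← Real.mul_rpow (by norm_num) hx.le]
          exact mul_le_mul_of_nonneg_left (Real.rpow_le_rpow hu.le hu3 (by linarith)) (by norm_num)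
      _ ≤ 25 * ((3 : ℝ) ^ (2 : ℝ) * x ^ (s.re + 1)) := mul_le_mul_of_nonneg_left
          (mul_le_mul_of_nonneg_right (Real.rpow_le_rpow_of_exponent_le (by norm_num) (by linarith))
            (Real.rpow_nonneg hx.le _)) (by norm_num)
      _ = _ := by rw [Real.rpow_two]; ring
  have e1 := e (x + 2 * h) (by linarith) (by linarith)
  have e2 := e (x + h) (by linarith) (by linarith)
  have e3 := e x hx (by linarith)
  rw [secondDiff]
  refine ((norm_add_le _ _).trans (add_le_add ((norm_sub_le _ _).trans (add_le_add e1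
    ((norm_mul _ _).trans_le (mul_le_mul_of_nonneg_left e2 (norm_nonneg _))))) e3)).trans
      (le_of_eq ?_)
  rw [Complex.norm_two]
  ring

/-- On `re s = 1/4`. -/
theorem norm_secondDiff_quarter {x h : ℝ} (hx : 0 < x) (hh : √x ≤ h) (hhx : h ≤ x) {s : ℂ}
    (hre : s.re = 1 / 4) :
    ‖secondDiff x h s‖ ≤ 900 * h * √x * (1 + |s.im|) ^ (-(3 / 2) : ℝ) := by
  have hh0 : 0 ≤ h := (Real.sqrt_nonneg x).trans hh
  have a := norm_secondDiff_le_sq hx hh0 (s := s) (by rw [hre]) (by rw [hre]; norm_num)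
  have b := norm_secondDiff_le_kernel hx hh0 hhx (s := s) (by rw [hre]) (by rw [hre]; norm_num)
  obtain ⟨d, hd⟩ : ∃ d, d = ‖secondDiff x h s‖ := ⟨_, rfl⟩
  obtain ⟨u, hu⟩ : ∃ u : ℝ, u = x ^ (1 / 4 : ℝ) := ⟨_, rfl⟩
  obtain ⟨v, hv⟩ : ∃ v : ℝ, v = (1 + |s.im|) ^ (-(3 / 2) : ℝ) := ⟨_, rfl⟩
  obtain ⟨w, hw⟩ : ∃ w, w = 1 + |s.im| := ⟨_, rfl⟩
  have hw0 : 0 < w := by rw [hw]; positivity
  have hu0 : 0 < u := hu ▸ Real.rpow_pos_of_pos hx _
  have hx4 : x = u ^ 4 := by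
    rw [hu, ← Real.rpow_natCast, ← Real.rpow_mul hx.le]
    norm_num
  have hs : √x = u ^ 2 := by
    rw [hx4, show u ^ 4 = (u ^ 2) ^ 2 by ring, Real.sqrt_sq (by positivity)]
  have hv4 : v ^ 4 = 1 / w ^ 6 := by
    rw [hv, ← hw, ← Real.rpow_natCast, ← Real.rpow_mul hw0.le, one_div, ← Real.rpow_natCast,
      ← Real.rpow_neg hw0.le]
    norm_num
  have hd0 : 0 ≤ d := hd ▸ norm_nonneg _
  rw [← hd, hre] at a b
  rw [← hd, ← hv, hs]
  rw [← hw] at b
  have a' : d ≤ h ^ 2 / u ^ 3 := by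
    refine a.trans (le_of_eq ?_)
    rw [show (1 / 4 - 1 : ℝ) = -((1 / 4 : ℝ) * (3 : ℕ)) by norm_num, Real.rpow_neg hx.le,
      Real.rpow_mul_natCast hx.le, ← hu, div_eq_mul_inv]
  have b' : d ≤ 900 * u ^ 5 / w ^ 2 := by
    refine b.trans (le_of_eq ?_)
    rw [show (1 / 4 + 1 : ℝ) = (1 / 4 : ℝ) * (5 : ℕ) by norm_num, Real.rpow_mul_natCast hx.le, ← hu]
  refine le_of_pow_le_pow_left₀ four_ne_zero
    (by rw [hv]; exact mul_nonneg (mul_nonneg (by linarith) (by positivity)) (by positivity)) ?_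
  have hh2 : u ^ 4 ≤ h ^ 2 := by
    rw [← hx4]
    exact (Real.sq_sqrt hx.le).symm.le.trans (pow_le_pow_left₀ (Real.sqrt_nonneg x) hh 2)
  calc d ^ 4 = d * d ^ 3 := by ring
    _ ≤ h ^ 2 / u ^ 3 * (900 * u ^ 5 / w ^ 2) ^ 3 :=
        mul_le_mul a' (pow_le_pow_left₀ hd0 b' 3) (by positivity) (by positivity)
    _ = 900 ^ 3 * (h ^ 2 * u ^ 8) * (1 / w ^ 6) * u ^ 4 := by field_simp
    _ ≤ 900 ^ 4 * (h ^ 2 * u ^ 8) * (1 / w ^ 6) * h ^ 2 := by
        refine mul_le_mul (mul_le_mul_of_nonneg_right (mul_le_mul_of_nonneg_right (by norm_num)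
          (by positivity)) (by positivity)) hh2 (by positivity) (by positivity)
    _ = _ := by rw [← hv4]; ring

/-- **The sum over zeros on the critical line.** -/
theorem sum_secondDiff_le {m : ℂ → ℝ} (hm : ∀ ρ, 0 ≤ m ρ) {x h A : ℝ} (hx : 1 ≤ x) (hh : 0 < h)
    (hhx : h ≤ x) (S : Finset ℂ) (hS : ∀ ρ ∈ S, m ρ ≠ 0 → ρ.re = 1 / 2) {N : ℕ}
    (hN1 : x / h ≤ N) (hN2 : (N : ℝ) ≤ 2 * (x / h))
    (hcount : ∑ ρ ∈ S.filter (fun ρ => |ρ.im| ≤ (N : ℝ)), m ρ ≤ A * N)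
    (htail : ∑ ρ ∈ S.filter (fun ρ => ¬|ρ.im| ≤ (N : ℝ)), m ρ / (1 + |ρ.im|) ^ 2 ≤ A / N) :
    ∑ ρ ∈ S, m ρ * ‖secondDiff x h ρ‖ ≤ 902 * A * h * √x := by
  have hx0 : 0 < x := by linarith
  have hN0 : (0 : ℝ) < N := lt_of_lt_of_le (by positivity) hN1
  have hA : 0 ≤ A := by
    have h1 := le_trans (sum_nonneg fun ρ _ => hm ρ) hcount
    exact nonneg_of_mul_nonneg_left h1 hN0
  have hsq : x ^ (1 / 2 - 1 : ℝ) = √x / x := by
    rw [Real.rpow_sub hx0, Real.rpow_one, Real.sqrt_eq_rpow]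
  have h32 : x ^ (1 / 2 + 1 : ℝ) = √x * x := by
    rw [Real.rpow_add hx0, Real.rpow_one, Real.sqrt_eq_rpow]
  rw [← sum_filter_add_sum_filter_not S fun ρ : ℂ => |ρ.im| ≤ (N : ℝ),
    show 902 * A * h * √x = 2 * A * h * √x + 900 * A * h * √x by ring]
  refine add_le_add ?_ ?_
  · calc ∑ ρ ∈ S.filter (fun ρ => |ρ.im| ≤ (N : ℝ)), m ρ * ‖secondDiff x h ρ‖
        ≤ ∑ ρ ∈ S.filter (fun ρ => |ρ.im| ≤ (N : ℝ)), m ρ * (h ^ 2 * (√x / x)) :=
          sum_le_sum fun ρ hρ => by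
            rcases eq_or_ne (m ρ) 0 with h0 | h0
            · simp [h0]
            have hre := hS ρ (mem_filter.1 hρ).1 h0
            refine mul_le_mul_of_nonneg_left ?_ (hm ρ)
            rw [← hsq]
            exact (norm_secondDiff_le_sq hx0 hh.le (by rw [hre]; norm_num)
              (by rw [hre]; norm_num)).trans (by rw [hre])
      _ ≤ A * (2 * (x / h)) * (h ^ 2 * (√x / x)) := by
          rw [← sum_mul]
          exact mul_le_mul_of_nonneg_right (hcount.trans (mul_le_mul_of_nonneg_left hN2 hA))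
            (by positivity)
      _ = _ := by field_simp
  · calc ∑ ρ ∈ S.filter (fun ρ => ¬|ρ.im| ≤ (N : ℝ)), m ρ * ‖secondDiff x h ρ‖
        ≤ ∑ ρ ∈ S.filter (fun ρ => ¬|ρ.im| ≤ (N : ℝ)),
            900 * (√x * x) * (m ρ / (1 + |ρ.im|) ^ 2) :=
          sum_le_sum fun ρ hρ => by
            rcases eq_or_ne (m ρ) 0 with h0 | h0
            · simp [h0]
            have hre := hS ρ (mem_filter.1 hρ).1 h0
            refine (mul_le_mul_of_nonneg_left (norm_secondDiff_le_kernel hx0 hh.le hhx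
              (by rw [hre]; norm_num) (by rw [hre]; norm_num)) (hm ρ)).trans (le_of_eq ?_)
            rw [hre, h32]
            ring
      _ ≤ 900 * (√x * x) * (A / (x / h)) := by
          rw [← mul_sum]
          exact mul_le_mul_of_nonneg_left (htail.trans
            (div_le_div_of_nonneg_left hA (by positivity) hN1)) (by positivity)
      _ = _ := by field_simp

end FA.CramerGaps

end
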