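import Fermat.Agent.CramerGaps.Sums

/-!
# Cramér's theorem in progressions, the least prime and the gaps between primes
-/

set_option autoImplicit false

noncomputable section

namespace FA.CramerGaps

open Finset
open FA.GRHProgressions (GRHMod log_mul_facts)
open FA.DirichletHadamard (GRHFor)
open FA.RiemannMangoldt (xiFn xiFn_zero_strip xiFn_eq_zero_iff)
open FA.Gallagher (twist)
open scoped Real ArithmeticFunction.vonMangoldt

variable {q : ℕ} [NeZero q]

theorem xi_zero_re_eq (h : GRHFor (1 : DirichletCharacter ℂ q)) {ρ : ℂ} (hρ : xiFn ρ = 0) :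
    ρ.re = 1 / 2 := by
  obtain ⟨h0, h1⟩ := xiFn_zero_strip hρ
  have hne : ρ ≠ 1 := fun h' => by rw [h'] at h1; simp at h1
  have hz := (xiFn_eq_zero_iff h0 hne).1 hρ
  refine h ρ ?_ h0 h1
  rw [show DirichletCharacter.LFunction (1 : DirichletCharacter ℂ q) ρ =
    DirichletCharacter.LFunctionTrivChar q ρ from rfl,
    DirichletCharacter.LFunctionTrivChar_eq_mul_riemannZeta hne, hz, mul_zero]

/-- `∑_{n ≡ a} Λ n` with the weight of the tent. -/
def classTent (a : ZMod q) (x h : ℝ) : ℝ :=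
  ∑ n ∈ (Icc 1 ⌊x + 2 * h⌋₊).filter (fun n : ℕ => (n : ZMod q) = a), Λ n * tent x h n

theorem totient_mul_classTent {a : ZMod q} (ha : IsUnit a) {x h : ℝ} (hx : 0 ≤ x) (hh : 0 ≤ h) :
    ((q.totient * classTent a x h : ℝ) : ℂ) =
      ∑ χ : DirichletCharacter ℂ q, χ a⁻¹ * diffTwo χ x h := by
  simp only [diffTwo_eq _ hx hh, mul_sum]
  rw [sum_comm, classTent, sum_filter, mul_sum, Complex.ofReal_sum]
  refine sum_congr rfl fun n _ => ?_
  calc ((q.totient * (if (n : ZMod q) = a then Λ n * tent x h n else 0) : ℝ) : ℂ)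
      = (if a = (n : ZMod q) then (q.totient : ℂ) else 0) * ((Λ n : ℂ) * (tent x h n : ℂ)) := by
        by_cases hn : (n : ZMod q) = a
        · rw [if_pos hn, if_pos hn.symm]
          push_cast
          ring
        · rw [if_neg hn, if_neg (Ne.symm hn)]
          simp
    _ = _ := by
        rw [← DirichletCharacter.sum_char_inv_mul_char_eq ℂ ha, sum_mul]
        exact sum_congr rfl fun χ _ => by rw [twist]; ring

/-- **The weighted count in a class.** -/
theorem exists_classTent : ∃ C, 0 ≤ C ∧ ∀ (q : ℕ) [NeZero q], GRHMod q →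
    ∀ a : ZMod q, IsUnit a → ∀ x h : ℝ, 2 ≤ x → √x ≤ h → h ≤ x →
      h ^ 2 - C * q.totient * h * √x * Real.log (q * x) ≤ q.totient * classTent a x h := by
  classical
  obtain ⟨C₁, hC₁, h1⟩ := exists_diffTwo_nontrivial
  obtain ⟨C₂, hC₂, h2⟩ := exists_diffTwo_one
  refine ⟨C₁ + C₂ + 8, by positivity, fun q _ hG a ha x h hx hsh hhx => ?_⟩
  have hh : 0 ≤ h := (Real.sqrt_nonneg x).trans hsh
  obtain ⟨L, hL⟩ : ∃ L, L = Real.log (q * x) := ⟨_, rfl⟩
  have hL0 : 0 ≤ L := hL ▸ le_trans (by norm_num) (logs_le (q := q) hx).2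
  have hlx : Real.log x ≤ L := hL ▸ Real.log_le_log (by linarith)
    (le_mul_of_one_le_left (by linarith) (Nat.one_le_cast.2 NeZero.one_le))
  rw [← hL]
  obtain ⟨E, hE⟩ : ∃ E, E = (C₁ + C₂ + 8) * (h * √x * L) := ⟨_, rfl⟩
  have hhs : 0 ≤ h * √x * L := by positivity
  have key : ‖((q.totient * classTent a x h : ℝ) : ℂ) - ((h ^ 2 : ℝ) : ℂ)‖ ≤
      q.totient * E := by
    rw [totient_mul_classTent ha (by linarith) hh, show ((h ^ 2 : ℝ) : ℂ) =
      ∑ χ : DirichletCharacter ℂ q, if χ = 1 then ((h ^ 2 : ℝ) : ℂ) else 0 by simp,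
      ← sum_sub_distrib]
    refine (norm_sum_le _ _).trans ((sum_le_card_nsmul _ _ E fun χ _ => ?_).trans (le_of_eq ?_))
    · rw [hE]
      by_cases hχ : χ = 1
      · subst hχ
        have hau : IsUnit a⁻¹ := IsUnit.of_mul_eq_one a (ZMod.inv_mul_of_unit a ha)
        rw [if_pos rfl, MulChar.one_apply hau, one_mul]
        have e2 := h2 (fun ρ hρ => xi_zero_re_eq (hG 1) hρ) x h hx hsh hhx
        have e3 := (norm_twist_sub_le (1 : DirichletCharacter ℂ q) x h (by linarith) hh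
          (1 : DirichletCharacter ℂ 1) fun n hn => by
            rw [MulChar.one_apply ((ZMod.isUnit_iff_coprime n q).2 hn),
              MulChar.one_apply (isUnit_of_subsingleton _)]).trans (noncoprime_tent_le hx hh hhx)
        rw [← hL] at e3
        have e4 : C₂ * h * √x * Real.log x ≤ C₂ * h * √x * L :=
          mul_le_mul_of_nonneg_left hlx (by positivity)
        refine (norm_sub_le_norm_sub_add_norm_sub _ (diffTwo (1 : DirichletCharacter ℂ 1) x h)
          _).trans ((add_le_add e3 e2).trans ?_)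
        linarith [mul_nonneg hC₁ hhs]
      · rw [if_neg hχ, sub_zero, norm_mul]
        refine (mul_le_of_le_one_left (norm_nonneg _) (χ.norm_le_one _)).trans ?_
        refine (h1 q χ hχ (hG χ) x h hx hsh hhx).trans ?_
        rw [← hL]
        linarith [mul_nonneg hC₂ hhs]
    · rw [card_univ, ← Nat.card_eq_fintype_card,
        DirichletCharacter.card_eq_totient_of_hasEnoughRootsOfUnity, nsmul_eq_mul]
  rw [← Complex.ofReal_sub, Complex.norm_real, Real.norm_eq_abs, abs_le, hE] at key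
  linarith [key.1]

/-- Without primes of the class in `(x, x + 2 h)` the count is `O (h √x)`. -/
theorem exists_classTent_le : ∃ D, 0 ≤ D ∧ ∀ (q : ℕ) (a : ZMod q) (x h : ℝ), 0 ≤ x → 0 ≤ h →
    h ≤ x → (∀ p : ℕ, p.Prime → (p : ZMod q) = a → x < p → x + 2 * h ≤ p) →
      classTent a x h ≤ D * h * √x := by
  obtain ⟨D, hD⟩ := Chebyshev.psi_sub_theta_le_mul_sqrt
  have hD0 : 0 ≤ D := by
    have := hD 4
    have h4 : (0 : ℝ) < √4 := Real.sqrt_pos.2 (by norm_num)
    nlinarith [Chebyshev.theta_le_psi 4]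
  refine ⟨2 * D, by positivity, fun q a x h hx hh hhx hno => ?_⟩
  calc classTent a x h
      ≤ h * ∑ n ∈ Ioc 0 ⌊x + 2 * h⌋₊ with ¬n.Prime, Λ n := by
        rw [classTent, mul_sum]
        simp only [sum_filter]
        rw [show Ioc 0 ⌊x + 2 * h⌋₊ = Icc 1 ⌊x + 2 * h⌋₊ from by ext n; simp; omega]
        refine sum_le_sum fun n _ => ?_
        obtain ⟨t0, t1, t2⟩ := tent_facts (x := x) hh n
        by_cases hn : n.Prime
        · rw [if_neg (not_not.2 hn)]
          by_cases ha : (n : ZMod q) = a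
          · rw [if_pos ha, t2 ((le_or_gt (n : ℝ) x).imp_right fun h' => hno n hn ha h'), mul_zero]
          · rw [if_neg ha]
        · rw [if_pos hn]
          by_cases ha : (n : ZMod q) = a
          · rw [if_pos ha, mul_comm h]
            exact mul_le_mul_of_nonneg_left t1 ArithmeticFunction.vonMangoldt_nonneg
          · rw [if_neg ha]
            exact mul_nonneg hh ArithmeticFunction.vonMangoldt_nonneg
    _ ≤ h * (D * (2 * √x)) := by
        rw [← Chebyshev.psi_sub_theta_eq_sum_not_prime]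
        refine mul_le_mul_of_nonneg_left ((hD _).trans (mul_le_mul_of_nonneg_left ?_ hD0)) hh
        rw [Real.sqrt_le_left (by positivity), mul_pow, Real.sq_sqrt hx]
        linarith
    _ = _ := by ring

/-- **Cramér's theorem in progressions.** -/
theorem exists_prime_interval : ∃ C, 0 < C ∧ ∀ (q : ℕ) [NeZero q], GRHMod q →
    ∀ a : ZMod q, IsUnit a → ∀ x : ℝ, 2 ≤ x → C * q.totient * Real.log (q * x) ≤ √x →
      ∃ p : ℕ, p.Prime ∧ (p : ZMod q) = a ∧ x < p ∧
        (p : ℝ) ≤ x + C * q.totient * √x * Real.log (q * x) := by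
  obtain ⟨C, hC, hb⟩ := exists_classTent
  obtain ⟨D, hD, hup⟩ := exists_classTent_le
  obtain ⟨r, hr⟩ : ∃ r, r = C + 2 * D + 2 := ⟨_, rfl⟩
  refine ⟨2 * r, by rw [hr]; positivity, fun q _ hG a ha x hx hbig => ?_⟩
  obtain ⟨φ, hφ⟩ : ∃ φ : ℝ, φ = q.totient := ⟨_, rfl⟩
  obtain ⟨L, hL⟩ : ∃ L, L = Real.log (q * x) := ⟨_, rfl⟩
  rw [← hφ, ← hL] at hbig ⊢
  have hφ1 : 1 ≤ φ := hφ ▸ Nat.one_le_cast.2 (Nat.totient_pos.2 (NeZero.pos q))
  have hL2 : 1 / 2 ≤ L := hL ▸ (logs_le (q := q) hx).2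
  have hs : 0 < √x := Real.sqrt_pos.2 (by linarith)
  obtain ⟨h, hh⟩ : ∃ h, h = r * φ * √x * L := ⟨_, rfl⟩
  have hr2 : 2 ≤ r := by rw [hr]; linarith
  have hrL : 1 ≤ r * φ * L := by
    calc (1 : ℝ) = 2 * 1 * (1 / 2) := by norm_num
      _ ≤ _ := by gcongr
  have hsh : √x ≤ h := by
    calc √x = 1 * √x := (one_mul _).symm
      _ ≤ r * φ * L * √x := mul_le_mul_of_nonneg_right hrL hs.le
      _ = h := by rw [hh]; ring
  have hhx : h ≤ x := by
    have h1 : r * φ * L ≤ √x := le_trans (by nlinarith) hbig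
    calc h = r * φ * L * √x := by rw [hh]; ring
      _ ≤ √x * √x := mul_le_mul_of_nonneg_right h1 hs.le
      _ = x := Real.mul_self_sqrt (by linarith)
  by_contra hno
  push Not at hno
  have hlow := hb q hG a ha x h hx hsh hhx
  rw [← hL, ← hφ] at hlow
  have hbad := hup q a x h (by linarith) (by linarith) hhx fun p hp hpa hxp => by
    refine le_of_eq_of_le ?_ (hno p hp hpa hxp).le
    rw [hh]
    ring
  have h0 : 0 < h := lt_of_lt_of_le hs hsh
  have h1 : φ * classTent a x h ≤ φ * (D * h * √x) :=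
    mul_le_mul_of_nonneg_left hbad (by linarith)
  have h2 : φ * (D * h * √x) * 1 ≤ φ * (D * h * √x) * (2 * L) :=
    mul_le_mul_of_nonneg_left (by linarith) (by positivity)
  have h3 : h * h ≤ h * ((C + 2 * D) * φ * √x * L) := by linarith
  have h4 := le_of_mul_le_mul_left h3 h0
  have h5 : 0 < φ * √x * L := by positivity
  rw [hh, hr] at h4
  linarith

/-- **The least prime is `O (φ q ² log² (2 q))`.** -/
theorem exists_least_prime_sq : ∃ C, 0 < C ∧ ∀ (q : ℕ) [NeZero q], GRHMod q →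
    ∀ a : ZMod q, IsUnit a → ∃ p : ℕ, p.Prime ∧ (p : ZMod q) = a ∧
      (p : ℝ) ≤ C * (q.totient : ℝ) ^ 2 * Real.log (2 * q) ^ 2 := by
  obtain ⟨C, hC, hb⟩ := exists_prime_interval
  obtain ⟨r, hr⟩ : ∃ r, r = 11 * C + 2 := ⟨_, rfl⟩
  refine ⟨2 * r ^ 4, by rw [hr]; positivity, fun q _ hG a ha => ?_⟩
  obtain ⟨φ, hφ⟩ : ∃ φ : ℝ, φ = q.totient := ⟨_, rfl⟩
  obtain ⟨M, hM⟩ : ∃ M, M = Real.log (2 * q) := ⟨_, rfl⟩
  rw [← hφ, ← hM]
  have hq : (1 : ℝ) ≤ q := Nat.one_le_cast.2 NeZero.one_le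
  have hφ1 : 1 ≤ φ := hφ ▸ Nat.one_le_cast.2 (Nat.totient_pos.2 (NeZero.pos q))
  have hφq : φ ≤ q := hφ ▸ Nat.cast_le.2 q.totient_le
  have hM2 : 0.69 ≤ M := by
    rw [hM]
    linarith [Real.log_le_log two_pos (show (2 : ℝ) ≤ 2 * q by linarith), Real.log_two_gt_d9]
  have hr2 : 2 ≤ r := by rw [hr]; linarith
  obtain ⟨x, hx⟩ : ∃ x, x = r ^ 4 * φ ^ 2 * M ^ 2 := ⟨_, rfl⟩
  have hsx : √x = r ^ 2 * φ * M := by
    rw [hx, show r ^ 4 * φ ^ 2 * M ^ 2 = (r ^ 2 * φ * M) ^ 2 by ring, Real.sqrt_sq (by positivity)]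
  have hx2 : 2 ≤ x := by
    calc (2 : ℝ) ≤ 2 ^ 4 * 1 ^ 2 * 0.69 ^ 2 := by norm_num
      _ ≤ _ := by rw [hx]; gcongr
  have hlx : Real.log (q * x) ≤ 4 * r + 5 * M := by
    have hMM : Real.log M ≤ M := Real.log_le_self (by linarith)
    have hlr : Real.log r ≤ r := Real.log_le_self (by linarith)
    have hlq : Real.log q ≤ M := hM ▸ Real.log_le_log (by linarith) (by linarith)
    have hlφ : Real.log φ ≤ M := (Real.log_le_log (by linarith) hφq).trans hlq
    rw [hx, Real.log_mul (by positivity) (by positivity),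
      Real.log_mul (by positivity) (by positivity),
      Real.log_mul (by positivity) (by positivity), Real.log_pow, Real.log_pow, Real.log_pow]
    push_cast
    linarith
  have hbig : C * q.totient * Real.log (q * x) ≤ √x := by
    rw [← hφ, hsx]
    have h1 : C * (4 * r + 5 * M) ≤ r ^ 2 * M := by
      calc C * (4 * r + 5 * M) ≤ C * (r * M * (4 / 0.69) + r * M * (5 / 2)) := by
            refine mul_le_mul_of_nonneg_left (add_le_add ?_ ?_) hC.le
            · rw [mul_div_assoc', le_div_iff₀ (by norm_num)]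
              nlinarith
            · nlinarith
        _ ≤ (11 * C) * r * M := by
            have : 0 ≤ C * r * M := by positivity
            linarith
        _ ≤ r * r * M := by gcongr; rw [hr]; linarith
        _ = _ := by ring
    calc C * φ * Real.log (q * x) ≤ C * φ * (4 * r + 5 * M) :=
          mul_le_mul_of_nonneg_left hlx (by positivity)
      _ = φ * (C * (4 * r + 5 * M)) := by ring
      _ ≤ φ * (r ^ 2 * M) := mul_le_mul_of_nonneg_left h1 (by linarith)
      _ = _ := by ring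
  obtain ⟨p, hp, hpa, -, hle⟩ := hb q hG a ha x hx2 hbig
  refine ⟨p, hp, hpa, hle.trans ?_⟩
  have h2 : C * q.totient * √x * Real.log (q * x) ≤ x := by
    calc C * q.totient * √x * Real.log (q * x) = C * q.totient * Real.log (q * x) * √x := by ring
      _ ≤ √x * √x := mul_le_mul_of_nonneg_right hbig (Real.sqrt_nonneg x)
      _ = x := Real.mul_self_sqrt (by linarith)
  rw [hx] at h2 ⊢
  linarith

theorem grhMod_one (hRH : RiemannHypothesis) : GRHMod 1 := fun χ ρ hρ h0 h1 => by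
  rw [DirichletCharacter.LFunction_modOne_eq] at hρ
  refine hRH ρ hρ (fun ⟨n, hn⟩ => ?_) fun e => by rw [e] at h1; simp at h1
  have h2 := congrArg Complex.re hn
  simp at h2
  linarith [(Nat.cast_nonneg n : (0 : ℝ) ≤ n)]

/-- **Cramér: `p (n + 1) - p n = O (√(p n) log (p n))` on the Riemann hypothesis.** -/
theorem exists_gap_bound : ∃ C, 0 < C ∧ (RiemannHypothesis → ∀ n : ℕ,
    (Nat.nth Nat.Prime (n + 1) : ℝ) - Nat.nth Nat.Prime n ≤
      C * √(Nat.nth Nat.Prime n : ℝ) * Real.log (Nat.nth Nat.Prime n)) := by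
  obtain ⟨C, hC, hb⟩ := exists_prime_interval
  refine ⟨C, hC, fun hRH n => ?_⟩
  obtain ⟨p, hp⟩ : ∃ p, p = Nat.nth Nat.Prime n := ⟨_, rfl⟩
  have hpp : p.Prime := hp ▸ Nat.nth_mem_of_infinite Nat.infinite_setOfPred_prime n
  have hmono := Nat.nth_strictMono Nat.infinite_setOfPred_prime
  have hnext : ∀ r : ℕ, r.Prime → p < r → Nat.nth Nat.Prime (n + 1) ≤ r := fun r hr h => by
    obtain ⟨m, rfl⟩ : ∃ m, Nat.nth Nat.Prime m = r :=
      ⟨Nat.count Nat.Prime r, Nat.nth_count hr⟩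
    exact hmono.monotone (hmono.lt_iff_lt.1 (hp ▸ h))
  rw [← hp]
  have hp2 : (2 : ℝ) ≤ p := Nat.ofNat_le_cast.2 hpp.two_le
  obtain ⟨B, hB⟩ : ∃ B, B = C * √(p : ℝ) * Real.log p := ⟨_, rfl⟩
  rw [← hB]
  rcases le_or_gt (C * Real.log p) √(p : ℝ) with hbig | hsmall
  · obtain ⟨r, hr, -, hlt, hle⟩ := hb 1 (grhMod_one hRH) 1 isUnit_one p hp2 (by simpa using hbig)
    rw [Nat.totient_one, Nat.cast_one, mul_one, one_mul, ← hB] at hle
    have := (Nat.cast_le (α := ℝ)).2 (hnext r hr (Nat.cast_lt.1 hlt))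
    linarith
  · obtain ⟨r, hr, hlt, hle⟩ := Nat.exists_prime_lt_and_le_two_mul p hpp.ne_zero
    have h1 := (Nat.cast_le (α := ℝ)).2 ((hnext r hr hlt).trans hle)
    push_cast at h1
    have h2 : (p : ℝ) ≤ B := by
      calc (p : ℝ) = √(p : ℝ) * √(p : ℝ) := (Real.mul_self_sqrt (Nat.cast_nonneg _)).symm
        _ ≤ √(p : ℝ) * (C * Real.log p) := mul_le_mul_of_nonneg_left hsmall.le (Real.sqrt_nonneg _)
        _ = B := by rw [hB]; ring
    linarith

end FA.CramerGaps

end
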