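import Fermat.Agent.CramerGaps.Kernel
import Fermat.Agent.GRHProgressions.Classes

/-!
# The second difference of `ψ₁ (x, χ)` on the Riemann hypothesis

It is `O (h √x log (q x))` for `χ ≠ 1` and `h ^ 2 + O (h √x log (q x))` for `χ = 1`,
if `√x ≤ h ≤ x`.
-/

set_option autoImplicit false

noncomputable section

namespace FA.CramerGaps

open Complex MeasureTheory Finset
open FA.GRHProgressions
open FA.DirichletHadamard (GRHFor)
open FA.DirichletLandau (lMult)
open FA.DirichletZeroCount (qLog qLog_ge)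
open FA.ExplicitFormula (zeroWeight zeroWeight_eq_zero zeroTerm explicit_eq exists_integral_left
  summable_norm_zeroTerm exists_sum_blocks exists_sum_tail integrand ell_le_log)
open FA.ZeroFree (psiOne ell ell_pos ell_mono)
open FA.RiemannMangoldt (xiFn)
open FA.Gallagher (psiOneChar twist zeroPow primOf primOf_apply primOf_eq_one_iff)
open scoped Real ArithmeticFunction.vonMangoldt

/-- The tent on `(x, x + 2 h)`. -/
def tent (x h : ℝ) (n : ℕ) : ℝ :=
  max (x + 2 * h - n) 0 - 2 * max (x + h - n) 0 + max (x - n) 0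

theorem tent_facts {x h : ℝ} (hh : 0 ≤ h) (n : ℕ) :
    0 ≤ tent x h n ∧ tent x h n ≤ h ∧
      ((n : ℝ) ≤ x ∨ x + 2 * h ≤ n → tent x h n = 0) := by
  rw [tent]
  rcases le_total (n : ℝ) x with h1 | h1
  · rw [max_eq_left (by linarith), max_eq_left (by linarith), max_eq_left (by linarith)]
    exact ⟨by linarith, by linarith, fun _ => by ring⟩
  rw [max_eq_right (show x - n ≤ 0 by linarith)]
  rcases le_total (n : ℝ) (x + h) with h2 | h2
  · rw [max_eq_left (by linarith), max_eq_left (by linarith)]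
    refine ⟨by linarith, by linarith, fun h3 => ?_⟩
    rcases h3 with h3 | h3 <;> linarith
  rw [max_eq_right (show x + h - n ≤ 0 by linarith)]
  rcases le_total (n : ℝ) (x + 2 * h) with h3 | h3
  · rw [max_eq_left (by linarith)]
    refine ⟨by linarith, by linarith, fun h4 => ?_⟩
    rcases h4 with h4 | h4 <;> linarith
  · rw [max_eq_right (by linarith)]
    exact ⟨by linarith, by linarith, fun _ => by ring⟩

variable {q : ℕ}

/-- The second difference of `ψ₁ (x, χ)`. -/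
def diffTwo (χ : DirichletCharacter ℂ q) (x h : ℝ) : ℂ :=
  psiOneChar χ (x + 2 * h) - 2 * psiOneChar χ (x + h) + psiOneChar χ x

theorem sum_mul_max (f : ℕ → ℂ) {y : ℝ} (hy : 0 ≤ y) {M : ℕ} (hM : ⌊y⌋₊ ≤ M) :
    ∑ n ∈ Icc 1 ⌊y⌋₊, f n * ((y - n : ℝ) : ℂ) =
      ∑ n ∈ Icc 1 M, f n * ((max (y - n) 0 : ℝ) : ℂ) := by
  refine (sum_congr rfl fun n hn => ?_).trans
    (sum_subset (Icc_subset_Icc_right hM) fun n hn hn' => ?_)
  · rw [max_eq_left]
    linarith [(Nat.cast_le (α := ℝ)).2 (mem_Icc.1 hn).2, Nat.floor_le hy]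
  · rw [max_eq_right, Complex.ofReal_zero, mul_zero]
    rw [mem_Icc] at hn hn'
    have h1 : y < n := (Nat.floor_lt hy).1 (by omega)
    linarith

theorem diffTwo_eq (χ : DirichletCharacter ℂ q) {x h : ℝ} (hx : 0 ≤ x) (hh : 0 ≤ h) :
    diffTwo χ x h = ∑ n ∈ Icc 1 ⌊x + 2 * h⌋₊, twist χ n * (tent x h n : ℂ) := by
  rw [diffTwo, psiOneChar, psiOneChar, psiOneChar,
    sum_mul_max _ (by linarith) (le_refl ⌊x + 2 * h⌋₊),
    sum_mul_max _ (y := x + h) (by linarith) (M := ⌊x + 2 * h⌋₊) (Nat.floor_mono (by linarith)),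
    sum_mul_max _ hx (M := ⌊x + 2 * h⌋₊) (Nat.floor_mono (by linarith)), mul_sum,
    ← sum_sub_distrib, ← sum_add_distrib]
  refine sum_congr rfl fun n _ => ?_
  rw [tent]
  push_cast
  ring

theorem logs_le [NeZero q] {x : ℝ} (hx : 2 ≤ x) :
    Real.log q + 10 ≤ 21 * Real.log (q * x) ∧ 1 / 2 ≤ Real.log (q * x) := by
  have h := (log_mul_facts q hx).2.2
  have h2 : Real.log q ≤ Real.log (q * x) := Real.log_le_log (Nat.cast_pos.2 (NeZero.pos q))
    (le_mul_of_one_le_right (Nat.cast_nonneg q) (by linarith))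
  constructor <;> linarith

/-- **Primitive characters.** -/
theorem exists_diffTwo_primitive : ∃ C, 0 ≤ C ∧ ∀ (q : ℕ) [NeZero q]
    (χ : DirichletCharacter ℂ q), χ.IsPrimitive → χ ≠ 1 → GRHFor χ → ∀ x h : ℝ, 2 ≤ x →
      √x ≤ h → h ≤ x → ‖diffTwo χ x h‖ ≤ C * h * √x * Real.log (q * x) := by
  obtain ⟨K, hK, hneg⟩ := exists_negL_quarter
  obtain ⟨Cf, hCf, hfold⟩ := exists_fold_weight
  obtain ⟨Ct, hCt, htail⟩ := exists_tail_sum
  obtain ⟨J, hJ⟩ : ∃ J, J = ∫ t : ℝ, (1 + |t|) ^ (-(11 / 8) : ℝ) := ⟨_, rfl⟩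
  have hJ0 : 0 ≤ J := hJ ▸ integral_nonneg fun t => by positivity
  refine ⟨21 * 900 * K * J + 902 * (12 * Cf + 3 * Ct), by positivity,
    fun q _ χ hp hχ hG x h hx hsh hhx => ?_⟩
  obtain ⟨L, hL⟩ : ∃ L, L = Real.log (q * x) := ⟨_, rfl⟩
  obtain ⟨hlq, hL2⟩ := logs_le (q := q) hx
  rw [← hL] at hlq hL2 ⊢
  have hx0 : 0 < x := by linarith
  have hh0 : 0 < h := lt_of_lt_of_le (Real.sqrt_pos.2 hx0) hsh
  have y1 : 1 ≤ x + 2 * h := by linarith
  have y2 : 1 ≤ x + h := by linarith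
  have y3 : 1 ≤ x := by linarith
  have i1 := integrable_line_quarter hp hχ hG (show 0 < x + 2 * h by linarith)
  have i2 := integrable_line_quarter hp hχ hG (show 0 < x + h by linarith)
  have i3 := integrable_line_quarter hp hχ hG hx0
  have s1 := (summable_zeroPow hp hχ hG (show 0 < x + 2 * h by linarith)).of_norm
  have s2 := (summable_zeroPow hp hχ hG (show 0 < x + h by linarith)).of_norm
  have s3 := (summable_zeroPow hp hχ hG hx0).of_norm
  have hI : (∫ t : ℝ, intF χ (x + 2 * h) (((1 / 4 : ℝ) : ℂ) + t * I)) -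
      2 * (∫ t : ℝ, intF χ (x + h) (((1 / 4 : ℝ) : ℂ) + t * I)) +
        (∫ t : ℝ, intF χ x (((1 / 4 : ℝ) : ℂ) + t * I)) =
      ∫ t : ℝ, secondDiff x h (((1 / 4 : ℝ) : ℂ) + t * I) *
        negL χ (((1 / 4 : ℝ) : ℂ) + t * I) := by
    rw [← integral_const_mul, ← integral_sub i1 (i2.const_mul 2),
      ← integral_add (f := fun t : ℝ => intF χ (x + 2 * h) (((1 / 4 : ℝ) : ℂ) + t * I) -
        2 * intF χ (x + h) (((1 / 4 : ℝ) : ℂ) + t * I)) (i1.sub (i2.const_mul 2)) i3]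
    refine integral_congr_ae (Filter.Eventually.of_forall fun t => ?_)
    simp only [intF, secondDiff]
    ring
  have hline : ‖∫ t : ℝ, secondDiff x h (((1 / 4 : ℝ) : ℂ) + t * I) *
      negL χ (((1 / 4 : ℝ) : ℂ) + t * I)‖ ≤ 900 * h * √x * (K * (21 * L)) * J := by
    refine (norm_integral_le_of_norm_le ((integrable_bracket
      (show (1 : ℝ) < 11 / 8 by norm_num)).const_mul (900 * h * √x * (K * (21 * L))))
      (Filter.Eventually.of_forall fun t => ?_)).trans (le_of_eq ?_)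
    · obtain ⟨s, hs⟩ : ∃ s : ℂ, s = ((1 / 4 : ℝ) : ℂ) + t * I := ⟨_, rfl⟩
      have hre : s.re = 1 / 4 := by simp [hs]
      have him : s.im = t := by simp [hs]
      have a := norm_secondDiff_quarter hx0 hsh hhx hre
      have b := hneg q χ hp hχ hG t
      rw [him] at a
      rw [← hs] at b ⊢
      rw [norm_mul]
      refine (mul_le_mul a b (norm_nonneg _) (by positivity)).trans ?_
      calc 900 * h * √x * (1 + |t|) ^ (-(3 / 2) : ℝ) *
            (K * (Real.log q + 10) * (1 + |t|) ^ (1 / 8 : ℝ))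
          = 900 * h * √x * (K * (Real.log q + 10)) *
              ((1 + |t|) ^ (-(3 / 2) : ℝ) * (1 + |t|) ^ (1 / 8 : ℝ)) := by ring
        _ ≤ 900 * h * √x * (K * (21 * L)) *
              ((1 + |t|) ^ (-(3 / 2) : ℝ) * (1 + |t|) ^ (1 / 8 : ℝ)) := by gcongr
        _ = _ := by
            rw [← Real.rpow_add (by positivity)]
            norm_num
    · rw [integral_const_mul, ← hJ]
  have hzeros : ‖(∑' ρ, (lMult χ ρ : ℂ) * zeroPow (x + 2 * h) ρ) -
      2 * (∑' ρ, (lMult χ ρ : ℂ) * zeroPow (x + h) ρ) +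
      (∑' ρ, (lMult χ ρ : ℂ) * zeroPow x ρ)‖ ≤ 902 * ((12 * Cf + 3 * Ct) * L) * h * √x := by
    obtain ⟨N, hN⟩ : ∃ N, N = ⌈x / h⌉₊ := ⟨_, rfl⟩
    have hxh : 1 ≤ x / h := (one_le_div₀ hh0).2 hhx
    have hN1 : x / h ≤ N := hN ▸ Nat.le_ceil _
    have hN2 : (N : ℝ) ≤ 2 * (x / h) := by
      rw [hN]
      linarith [Nat.ceil_lt_add_one (show 0 ≤ x / h by positivity)]
    have hN0 : (1 : ℝ) ≤ N := hxh.trans hN1
    have hNx : (N : ℝ) ≤ x + 1 := by
      rw [hN]
      have : x / h ≤ x := div_le_self hx0.le ((Real.one_le_sqrt.2 y3).trans hsh)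
      linarith [Nat.ceil_lt_add_one (show 0 ≤ x / h by positivity)]
    have hq0 : (0 : ℝ) ≤ q := Nat.cast_nonneg q
    have hqL : ∀ k : ℕ, k ≤ N → qLog q k ≤ 3 * L := fun k hk => by
      refine le_trans ?_ (hL ▸ (log_mul_facts q hx).1)
      refine Real.log_le_log (mul_pos (Nat.cast_pos.2 (NeZero.pos q)) (by positivity)) ?_
      rw [Nat.abs_cast, abs_of_nonneg (by linarith)]
      exact mul_le_mul_of_nonneg_left (by linarith [(Nat.cast_le (α := ℝ)).2 hk]) hq0
    rw [← tsum_mul_left, ← Summable.tsum_sub s1 (s2.mul_left 2),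
      ← Summable.tsum_add (s1.sub (s2.mul_left 2)) s3]
    refine (norm_tsum_le_tsum_norm ((s1.sub (s2.mul_left 2)).add s3).norm).trans
      (Real.tsum_le_of_sum_le (fun ρ => norm_nonneg _) fun S => ?_)
    refine (sum_le_sum (g := fun ρ : ℂ => (lMult χ ρ : ℝ) * ‖secondDiff x h ρ‖)
      fun ρ _ => le_of_eq ?_).trans ?_
    · rw [← Complex.norm_natCast, ← norm_mul, secondDiff]
      congr 1
      ring
    refine sum_secondDiff_le (fun ρ => Nat.cast_nonneg _) y3 hh0 hhx S (fun ρ _ hm => ?_)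
      hN1 hN2 ?_ ?_
    · exact re_eq_half hp hχ hG
        (DirichletHadamard.mem_strip_of_mult hp hχ (fun e => hm (by simp [e]))).1
    · classical
      calc ∑ ρ ∈ S.filter (fun ρ => |ρ.im| ≤ (N : ℝ)), (lMult χ ρ : ℝ)
          ≤ ∑ ρ ∈ S.filter (fun ρ => |ρ.im| ≤ (N : ℝ)),
              ∑ k ∈ range (N + 1), 2 * foldTerm χ k ρ := sum_le_sum fun ρ hρ => by
            refine (mult_le_foldTerm χ ρ).trans (single_le_sum (f := fun k : ℕ =>
              2 * foldTerm χ k ρ) (fun k _ => mul_nonneg two_pos.le (foldTerm_nonneg χ k ρ))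
              (mem_range.2 (Nat.lt_succ_of_le (Nat.floor_le_of_le (mem_filter.1 hρ).2))))
        _ = ∑ k ∈ range (N + 1), 2 * ∑ ρ ∈ S.filter (fun ρ => |ρ.im| ≤ (N : ℝ)),
              foldTerm χ k ρ := by
            rw [sum_comm]
            simp only [mul_sum]
        _ ≤ ∑ _k ∈ range (N + 1), 2 * (Cf * (3 * L)) := sum_le_sum fun k hk => by
            refine mul_le_mul_of_nonneg_left ((hfold q χ hp hχ k _).trans
              (mul_le_mul_of_nonneg_left (hqL k (Nat.lt_succ_iff.1 (mem_range.1 hk))) hCf))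
              two_pos.le
        _ ≤ _ := by
            rw [sum_const, card_range, nsmul_eq_mul]
            push_cast
            have : 0 ≤ Ct * L * N := by positivity
            have h2 : ((N : ℝ) + 1) * (2 * (Cf * (3 * L))) ≤
                (2 * N) * (2 * (Cf * (3 * L))) :=
              mul_le_mul_of_nonneg_right (by linarith) (by positivity)
            linarith
    · refine (htail q χ hp hχ N _ fun ρ hρ => (not_le.1 (mem_filter.1 hρ).2).le).trans ?_
      refine div_le_div₀ (by positivity) ?_ (by linarith) (by linarith)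
      have := mul_le_mul_of_nonneg_left (hqL N le_rfl) hCt
      nlinarith [mul_nonneg hCf (show 0 ≤ L by linarith)]
  rw [diffTwo, psiOneChar_eq_sum hp hχ hG y1, psiOneChar_eq_sum hp hχ hG y2,
    psiOneChar_eq_sum hp hχ hG y3]
  obtain ⟨c, hc⟩ : ∃ c : ℂ, c = (1 / (2 * π) : ℂ) := ⟨_, rfl⟩
  have hc1 : ‖c‖ ≤ 1 := by
    rw [hc, norm_div, norm_one, norm_mul, Complex.norm_two, Complex.norm_real,
      Real.norm_of_nonneg Real.pi_pos.le, div_le_one (by positivity)]
    linarith [Real.pi_gt_three]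
  rw [← hc]
  calc ‖c * (∫ t : ℝ, intF χ (x + 2 * h) (((1 / 4 : ℝ) : ℂ) + t * I)) -
        (∑' ρ, (lMult χ ρ : ℂ) * zeroPow (x + 2 * h) ρ) -
        2 * (c * (∫ t : ℝ, intF χ (x + h) (((1 / 4 : ℝ) : ℂ) + t * I)) -
          (∑' ρ, (lMult χ ρ : ℂ) * zeroPow (x + h) ρ)) +
        (c * (∫ t : ℝ, intF χ x (((1 / 4 : ℝ) : ℂ) + t * I)) -
          (∑' ρ, (lMult χ ρ : ℂ) * zeroPow x ρ))‖
      = ‖c * (∫ t : ℝ, secondDiff x h (((1 / 4 : ℝ) : ℂ) + t * I) *
          negL χ (((1 / 4 : ℝ) : ℂ) + t * I)) -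
          ((∑' ρ, (lMult χ ρ : ℂ) * zeroPow (x + 2 * h) ρ) -
            2 * (∑' ρ, (lMult χ ρ : ℂ) * zeroPow (x + h) ρ) +
            (∑' ρ, (lMult χ ρ : ℂ) * zeroPow x ρ))‖ := by
        rw [← hI]
        exact congrArg norm (by ring)
    _ ≤ 900 * h * √x * (K * (21 * L)) * J + 902 * ((12 * Cf + 3 * Ct) * L) * h * √x := by
        refine (norm_sub_le _ _).trans (add_le_add ?_ hzeros)
        rw [norm_mul]
        exact (mul_le_of_le_one_left (norm_nonneg _) hc1).trans hline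
    _ = _ := by ring

theorem noncoprime_tent_le [NeZero q] {x h : ℝ} (hx : 2 ≤ x) (hh : 0 ≤ h) (hhx : h ≤ x) :
    ∑ n ∈ (Icc 1 ⌊x + 2 * h⌋₊).filter (fun n => ¬n.Coprime q), Λ n * h ≤
      8 * h * √x * Real.log (q * x) := by
  have hx0 : 0 < x := by linarith
  obtain ⟨L, hL⟩ : ∃ L, L = Real.log (q * x) := ⟨_, rfl⟩
  have hL2 : 1 / 2 ≤ L := hL ▸ (logs_le (q := q) hx).2
  have hlq : Real.log q ≤ L := hL ▸ Real.log_le_log (Nat.cast_pos.2 (NeZero.pos q))
    (le_mul_of_one_le_right (Nat.cast_nonneg q) (by linarith))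
  have hN : 1 ≤ ⌊x + 2 * h⌋₊ := Nat.le_floor (by push_cast; linarith)
  have hl : Real.log (⌊x + 2 * h⌋₊ : ℝ) ≤ 4 * √x := by
    refine (Real.log_le_log (Nat.cast_pos.2 hN) (Nat.floor_le (by linarith))).trans ?_
    have h1 := Real.log_le_sub_one_of_pos (Real.sqrt_pos.2 (show 0 < x + 2 * h by linarith))
    rw [Real.log_sqrt (by linarith)] at h1
    have h3 : √(x + 2 * h) ≤ 2 * √x := by
      rw [Real.sqrt_le_left (by positivity), mul_pow, Real.sq_sqrt hx0.le]
      linarith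
    linarith
  rw [← sum_mul, ← hL]
  refine (mul_le_mul_of_nonneg_right ((sum_not_coprime q hN).trans
    (mul_le_mul ((card_primeFactors_le q).trans (show 2 * Real.log q ≤ 2 * L by linarith)) hl
      (Real.log_natCast_nonneg _) (by linarith))) hh).trans (le_of_eq ?_)
  ring

theorem norm_twist_sub_le (χ : DirichletCharacter ℂ q) (x h : ℝ) (hx : 0 ≤ x) (hh : 0 ≤ h)
    {r : ℕ} (ψ : DirichletCharacter ℂ r)
    (he : ∀ n : ℕ, n.Coprime q → χ (n : ZMod q) = ψ (n : ZMod r)) :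
    ‖diffTwo χ x h - diffTwo ψ x h‖ ≤
      ∑ n ∈ (Icc 1 ⌊x + 2 * h⌋₊).filter (fun n => ¬n.Coprime q), Λ n * h := by
  rw [diffTwo_eq χ hx hh, diffTwo_eq ψ hx hh, ← sum_sub_distrib, sum_filter]
  refine norm_sum_le_of_le _ fun n _ => ?_
  obtain ⟨t0, t1, -⟩ := tent_facts (x := x) hh n
  rw [← sub_mul, norm_mul, Complex.norm_real, Real.norm_of_nonneg t0, twist, twist, ← sub_mul,
    norm_mul, Complex.norm_real, Real.norm_of_nonneg ArithmeticFunction.vonMangoldt_nonneg]
  by_cases hc : n.Coprime q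
  · rw [if_neg (not_not.2 hc), he n hc, sub_self, norm_zero, zero_mul, zero_mul]
  · rw [if_pos hc, MulChar.map_nonunit χ fun h' => hc ((ZMod.isUnit_iff_coprime n q).1 h'),
      zero_sub, norm_neg]
    exact mul_le_mul (mul_le_of_le_one_left ArithmeticFunction.vonMangoldt_nonneg
      (ψ.norm_le_one _)) t1 t0 ArithmeticFunction.vonMangoldt_nonneg

/-- **All nontrivial characters.** -/
theorem exists_diffTwo_nontrivial : ∃ C, 0 ≤ C ∧ ∀ (q : ℕ) [NeZero q]
    (χ : DirichletCharacter ℂ q), χ ≠ 1 → GRHFor χ → ∀ x h : ℝ, 2 ≤ x →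
      √x ≤ h → h ≤ x → ‖diffTwo χ x h‖ ≤ C * h * √x * Real.log (q * x) := by
  obtain ⟨C, hC, hb⟩ := exists_diffTwo_primitive
  refine ⟨C + 8, by linarith, fun q _ χ hχ hG x h hx hsh hhx => ?_⟩
  have : NeZero (primOf χ).1 := ⟨χ.conductor_ne_zero⟩
  have hh : 0 ≤ h := (Real.sqrt_nonneg x).trans hsh
  have h1 := hb (primOf χ).1 (primOf χ).2 χ.primitiveCharacter_isPrimitive
    (fun e => hχ ((primOf_eq_one_iff χ).1 e)) (grhFor_primOf hχ hG) x h hx hsh hhx
  have hle : Real.log ((primOf χ).1 * x) ≤ Real.log (q * x) := by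
    refine Real.log_le_log (mul_pos (Nat.cast_pos.2 (NeZero.pos _)) (by linarith)) ?_
    exact mul_le_mul_of_nonneg_right (Nat.cast_le.2
      (Nat.le_of_dvd (NeZero.pos q) χ.conductor_dvd_level)) (by linarith)
  have h2 := (norm_twist_sub_le χ x h (by linarith) hh (primOf χ).2
    fun n hn => (primOf_apply χ hn).symm).trans (noncoprime_tent_le hx hh hhx)
  calc ‖diffTwo χ x h‖ ≤ ‖diffTwo (primOf χ).2 x h‖ +
        ‖diffTwo χ x h - diffTwo (primOf χ).2 x h‖ := by
        simpa [add_comm] using norm_add_le (diffTwo χ x h - diffTwo (primOf χ).2 x h)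
          (diffTwo (primOf χ).2 x h)
    _ ≤ C * h * √x * Real.log (q * x) + 8 * h * √x * Real.log (q * x) :=
        add_le_add (h1.trans (mul_le_mul_of_nonneg_left hle (by positivity))) h2
    _ = _ := by ring

theorem psiOneChar_one (y : ℝ) :
    psiOneChar (1 : DirichletCharacter ℂ 1) y = (psiOne y : ℂ) := by
  rw [psiOneChar, psiOne, Complex.ofReal_sum]
  refine sum_congr rfl fun n _ => ?_
  rw [twist, MulChar.one_apply (isUnit_of_subsingleton _), one_mul, ← Complex.ofReal_mul]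

/-- **`ζ`.** -/
theorem exists_diffTwo_one : ∃ C, 0 ≤ C ∧ ((∀ ρ : ℂ, xiFn ρ = 0 → ρ.re = 1 / 2) →
    ∀ x h : ℝ, 2 ≤ x → √x ≤ h → h ≤ x →
      ‖diffTwo (1 : DirichletCharacter ℂ 1) x h - ((h ^ 2 : ℝ) : ℂ)‖ ≤
        C * h * √x * Real.log x) := by
  obtain ⟨Cb, hCb, hblocks⟩ := exists_sum_blocks
  obtain ⟨Ct, hCt, htail⟩ := exists_sum_tail
  obtain ⟨CI, hCI, hint⟩ := exists_integral_left
  refine ⟨902 * (28 * Cb + 14 * Ct) + 16 * CI, by positivity, fun hRH x h hx hsh hhx => ?_⟩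
  have hx0 : 0 < x := by linarith
  have hh0 : 0 < h := lt_of_lt_of_le (Real.sqrt_pos.2 hx0) hsh
  have hl : 1 / 2 ≤ Real.log x := le_trans (by linarith [Real.log_two_gt_d9])
    (Real.log_le_log two_pos hx)
  have hsum : ∀ y : ℝ, 0 < y → Summable fun ρ => zeroTerm y ρ := fun y hy =>
    (summable_norm_zeroTerm hy).of_norm
  have s1 := hsum (x + 2 * h) (by linarith)
  have s2 := hsum (x + h) (by linarith)
  have s3 := hsum x hx0
  have hzeros : ‖(∑' ρ, zeroTerm (x + 2 * h) ρ) - 2 * (∑' ρ, zeroTerm (x + h) ρ) +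
      (∑' ρ, zeroTerm x ρ)‖ ≤ 902 * ((28 * Cb + 14 * Ct) * Real.log x) * h * √x := by
    obtain ⟨N, hN⟩ : ∃ N, N = ⌈x / h⌉₊ := ⟨_, rfl⟩
    have hxh : 1 ≤ x / h := (one_le_div₀ hh0).2 hhx
    have hN1 : x / h ≤ N := hN ▸ Nat.le_ceil _
    have hN2 : (N : ℝ) ≤ 2 * (x / h) := by
      rw [hN]
      linarith [Nat.ceil_lt_add_one (show 0 ≤ x / h by positivity)]
    have hN0 : (1 : ℝ) ≤ N := hxh.trans hN1
    have hNx : (N : ℝ) ≤ x + 1 := by
      rw [hN]
      have : x / h ≤ x :=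
        div_le_self hx0.le ((Real.one_le_sqrt.2 (by linarith)).trans hsh)
      linarith [Nat.ceil_lt_add_one (show 0 ≤ x / h by positivity)]
    have hell : ∀ k : ℕ, k ≤ N → ell (k : ℝ) ≤ 14 * Real.log x := fun k hk => by
      have h1 : ell (k : ℝ) ≤ ell (x + 1) := ell_mono (by
        rw [Nat.abs_cast, abs_of_nonneg (by linarith)]
        linarith [(Nat.cast_le (α := ℝ)).2 hk])
      have h2 : Real.log (x + 1) ≤ 2 * Real.log x := by
        rw [show (2 : ℝ) * Real.log x = Real.log (x ^ 2) by rw [Real.log_pow]; norm_num]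
        exact Real.log_le_log (by linarith) (by nlinarith)
      linarith [ell_le_log (show (2 : ℝ) ≤ x + 1 by linarith)]
    rw [← tsum_mul_left, ← Summable.tsum_sub s1 (s2.mul_left 2),
      ← Summable.tsum_add (s1.sub (s2.mul_left 2)) s3]
    refine (norm_tsum_le_tsum_norm ((s1.sub (s2.mul_left 2)).add s3).norm).trans
      (Real.tsum_le_of_sum_le (fun ρ => norm_nonneg _) fun S => ?_)
    refine (sum_le_sum (g := fun ρ : ℂ => (zeroWeight ρ : ℝ) * ‖secondDiff x h ρ‖)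
      fun ρ _ => le_of_eq ?_).trans ?_
    · rw [← Complex.norm_natCast, ← norm_mul, secondDiff, zeroTerm, zeroTerm, zeroTerm,
        zeroPow, zeroPow, zeroPow]
      congr 1
      ring
    classical
    have hxi : ∀ ρ : ℂ, (zeroWeight ρ : ℝ) ≠ 0 → xiFn ρ = 0 := fun ρ hm =>
      by_contra fun hne => hm (by simp [zeroWeight_eq_zero hne])
    refine sum_secondDiff_le (fun ρ => Nat.cast_nonneg _) (by linarith) hh0 hhx S
      (fun ρ _ hm => hRH ρ (hxi ρ hm)) hN1 hN2 ?_ ?_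
    · rw [← sum_filter_ne_zero (s := S.filter fun ρ : ℂ => |ρ.im| ≤ (N : ℝ))]
      have h1 := hblocks ((S.filter fun ρ : ℂ => |ρ.im| ≤ (N : ℝ)).filter
        fun ρ => (zeroWeight ρ : ℝ) ≠ 0) (range (N + 1)) (fun _ => 1) (fun _ => 1)
        (fun ρ hρ => by
          simp only [mem_filter] at hρ
          exact ⟨hxi ρ hρ.2, mem_range.2 (Nat.lt_succ_of_le (Nat.floor_le_of_le hρ.1.2)), le_rfl⟩)
        (fun k _ => zero_le_one)
      simp only [mul_one] at h1
      refine h1.trans ?_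
      calc Cb * ∑ k ∈ range (N + 1), ell (k : ℝ) ≤ Cb * ∑ _k ∈ range (N + 1), 14 * Real.log x :=
            mul_le_mul_of_nonneg_left (sum_le_sum fun k hk =>
              hell k (Nat.lt_succ_iff.1 (mem_range.1 hk))) hCb
        _ ≤ _ := by
            rw [sum_const, card_range, nsmul_eq_mul]
            push_cast
            have : 0 ≤ Ct * Real.log x * N := by positivity
            have h2 : Cb * (((N : ℝ) + 1) * (14 * Real.log x)) ≤
                Cb * ((2 * N) * (14 * Real.log x)) := by gcongr; linarith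
            linarith
    · rw [← sum_filter_ne_zero (s := S.filter fun ρ : ℂ => ¬|ρ.im| ≤ (N : ℝ))]
      refine (sum_le_sum_of_subset_of_nonneg (t := (S.filter fun ρ : ℂ => ¬|ρ.im| ≤ (N : ℝ)).filter
        fun ρ => (zeroWeight ρ : ℝ) ≠ 0) (fun ρ hρ => ?_) fun ρ _ _ => by positivity).trans ?_
      · simp only [mem_filter] at hρ ⊢
        exact ⟨hρ.1, fun e => hρ.2 (by simp [e])⟩
      refine (le_of_eq (sum_congr rfl fun ρ _ => ?_)).trans
        ((htail N _ hN0 fun ρ hρ => ?_).trans ?_)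
      · rw [mul_one_div]
      · simp only [mem_filter, not_le] at hρ
        exact ⟨hxi ρ hρ.2, hρ.1.2⟩
      · rw [mul_div_assoc']
        refine div_le_div_of_nonneg_right ?_ (by linarith)
        have := mul_le_mul_of_nonneg_left (hell N le_rfl) hCt
        nlinarith [mul_nonneg hCb (show 0 ≤ Real.log x by linarith)]
  obtain ⟨d, hd⟩ : ∃ d : ℂ, d = deriv riemannZeta 0 / riemannZeta 0 := ⟨_, rfl⟩
  obtain ⟨P, hP⟩ : ∃ P : ℝ → ℂ, P = fun y : ℝ =>
      (∫ t : ℝ, integrand y (((-1 / 2 : ℝ) : ℂ) + t * I)) / (2 * π) := ⟨_, rfl⟩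
  have hPn : ∀ y : ℝ, 0 < y → y ≤ 3 * x → ‖P y‖ ≤ 2 * CI * √x := fun y hy hy3 => by
    simp only [hP]
    rw [norm_div, norm_mul, RCLike.norm_ofNat, Complex.norm_real, Real.norm_eq_abs,
      abs_of_pos Real.pi_pos]
    refine (div_le_self (norm_nonneg _) (by linarith [Real.two_le_pi])).trans
      ((hint y hy).2.trans ?_)
    have h1 : √y ≤ 2 * √x := by
      rw [Real.sqrt_le_left (by positivity), mul_pow, Real.sq_sqrt hx0.le]
      linarith
    calc CI * √y ≤ CI * (2 * √x) := mul_le_mul_of_nonneg_left h1 hCI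
      _ = _ := by ring
  have he : ∀ y : ℝ, 0 < y → psiOneChar (1 : DirichletCharacter ℂ 1) y =
      (y : ℂ) ^ 2 / 2 - (∑' ρ, zeroTerm y ρ) - (y : ℂ) * d + P y := fun y hy => by
    rw [psiOneChar_one, hd, hP]
    have := explicit_eq hy
    simp only
    rw [← this]
    ring
  have e : diffTwo (1 : DirichletCharacter ℂ 1) x h - ((h ^ 2 : ℝ) : ℂ) =
      (P (x + 2 * h) - 2 * P (x + h) + P x) - ((∑' ρ, zeroTerm (x + 2 * h) ρ) -
        2 * (∑' ρ, zeroTerm (x + h) ρ) + (∑' ρ, zeroTerm x ρ)) := by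
    rw [diffTwo, he _ (by linarith), he _ (by linarith), he _ hx0]
    push_cast
    ring
  rw [e]
  have hp1 : ‖P (x + 2 * h) - 2 * P (x + h) + P x‖ ≤ 16 * CI * h * √x * Real.log x := by
    calc ‖P (x + 2 * h) - 2 * P (x + h) + P x‖ ≤
          2 * CI * √x + 2 * (2 * CI * √x) + 2 * CI * √x := by
          refine (norm_add_le _ _).trans (add_le_add ((norm_sub_le _ _).trans (add_le_add
            (hPn _ (by linarith) (by linarith)) ?_)) (hPn _ hx0 (by linarith)))
          rw [norm_mul, Complex.norm_two]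
          exact mul_le_mul_of_nonneg_left (hPn _ (by linarith) (by linarith)) two_pos.le
      _ = 16 * CI * √x * (1 * (1 / 2)) := by ring
      _ ≤ 16 * CI * √x * (h * Real.log x) := by
          refine mul_le_mul_of_nonneg_left (mul_le_mul ?_ hl (by norm_num) hh0.le) (by positivity)
          exact (Real.one_le_sqrt.2 (by linarith)).trans hsh
      _ = _ := by ring
  exact ((norm_sub_le _ _).trans (add_le_add hp1 hzeros)).trans (le_of_eq (by ring))

end FA.CramerGaps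

end
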